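import Mathlib

set_option autoImplicit false

open UpperHalfPlane ModularForm EisensteinSeries
open scoped MatrixGroups

namespace Fermat.Agent.H98

/-- `P` has integer coefficients and is the `q`-expansion of a level one form of weight `k`. -/
def IsGoodSeries (k : ℤ) (P : PowerSeries ℂ) : Prop :=
  P ∈ Set.range (PowerSeries.map (Int.castRingHom ℂ)) ∧
    ∃ G : ModularForm 𝒮ℒ k, qExpansion 1 G = P

theorem IsGoodSeries.congr_weight {k k' : ℤ} (h : k = k') {P : PowerSeries ℂ}
    (hP : IsGoodSeries k P) : IsGoodSeries k' P := h ▸ hP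

theorem IsGoodSeries.mul {k₁ k₂ : ℤ} {P₁ P₂ : PowerSeries ℂ} (h₁ : IsGoodSeries k₁ P₁)
    (h₂ : IsGoodSeries k₂ P₂) : IsGoodSeries (k₁ + k₂) (P₁ * P₂) := by
  obtain ⟨⟨p₁, rfl⟩, G₁, hG₁⟩ := h₁
  obtain ⟨⟨p₂, rfl⟩, G₂, hG₂⟩ := h₂
  refine ⟨⟨p₁ * p₂, map_mul _ _ _⟩, G₁.mul G₂, ?_⟩
  rw [ModularForm.qExpansion_mul one_pos one_mem_strictPeriods_SL, hG₁, hG₂]

theorem isGoodSeries_one : IsGoodSeries 0 1 :=
  ⟨⟨1, map_one _⟩, 1, ModularForm.qExpansion_one⟩

theorem IsGoodSeries.pow {k : ℤ} {P : PowerSeries ℂ} (h : IsGoodSeries k P) (n : ℕ) :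
    IsGoodSeries (n * k) (P ^ n) := by
  induction n with
  | zero => simpa using isGoodSeries_one
  | succ n ih =>
    rw [pow_succ]
    exact (ih.mul h).congr_weight (by push_cast; ring)

theorem isGoodSeries_E₄ : IsGoodSeries 4 (qExpansion 1 E₄) := by
  refine ⟨⟨PowerSeries.mk fun m =>
    if m = 0 then 1 else 240 * (ArithmeticFunction.sigma 3 m : ℤ), ?_⟩, E₄, rfl⟩
  ext m
  rw [PowerSeries.coeff_map, PowerSeries.coeff_mk, E_qExpansion_coeff _ ⟨2, rfl⟩]
  have hb : bernoulli 4 = -1 / 30 := by decide +kernel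
  split_ifs
  · simp
  · rw [hb]
    push_cast
    norm_num

theorem isGoodSeries_E₆ : IsGoodSeries 6 (qExpansion 1 E₆) := by
  refine ⟨⟨PowerSeries.mk fun m =>
    if m = 0 then 1 else -504 * (ArithmeticFunction.sigma 5 m : ℤ), ?_⟩, E₆, rfl⟩
  ext m
  rw [PowerSeries.coeff_map, PowerSeries.coeff_mk, E_qExpansion_coeff _ ⟨3, rfl⟩]
  have hb : bernoulli 6 = 1 / 42 := by decide +kernel
  split_ifs
  · simp
  · rw [hb]
    push_cast
    norm_num

/-- The `q`-expansion of `Δ` in terms of those of `E₄` and `E₆`. -/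
theorem qExpansion_discriminant_eq :
    qExpansion 1 ModularForm.discriminant =
      (1 / 1728 : ℂ) • (qExpansion 1 E₄ ^ 3 - qExpansion 1 E₆ ^ 2) := by
  set F : ModularForm 𝒮ℒ 12 :=
    ModularForm.mcast (by decide) (E₄.pow 3) - ModularForm.mcast (by decide) (E₆.pow 2) with hF
  have hFq : qExpansion 1 F = qExpansion 1 E₄ ^ 3 - qExpansion 1 E₆ ^ 2 := by
    simp only [hF, FunLike.coe_sub, coe_mcast,
      ModularForm.qExpansion_sub one_pos one_mem_strictPeriods_SL,
      ModularForm.qExpansion_pow one_pos one_mem_strictPeriods_SL]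
  have hfun : (ModularForm.discriminant : ℍ → ℂ) = ⇑((1 / 1728 : ℂ) • F) := by
    funext z
    rw [discriminant_eq_E₄_cube_sub_E₆_sq z]
    simp only [hF, smul_apply, sub_apply, coe_mcast, coe_pow,
      Pi.pow_apply, smul_eq_mul]
    ring
  rw [hfun, FunLike.coe_smul, ModularForm.qExpansion_smul one_pos one_mem_strictPeriods_SL, hFq]

/-- Multiplying a combination of good series of weight `k` by the `q`-expansion of `Δ` gives a
combination of good series of weight `k + 12`. -/
theorem discriminant_mul_mem_span {k : ℤ} {P : PowerSeries ℂ}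
    (hP : P ∈ Submodule.span ℂ {P | IsGoodSeries k P}) :
    qExpansion 1 ModularForm.discriminant * P ∈ Submodule.span ℂ {P | IsGoodSeries (k + 12) P} := by
  induction hP using Submodule.span_induction with
  | mem P hP =>
    rw [qExpansion_discriminant_eq]
    have h4 : IsGoodSeries (k + 12) (qExpansion 1 E₄ ^ 3 * P) :=
      ((isGoodSeries_E₄.pow 3).mul hP).congr_weight (by push_cast; ring)
    have h6 : IsGoodSeries (k + 12) (qExpansion 1 E₆ ^ 2 * P) :=
      ((isGoodSeries_E₆.pow 2).mul hP).congr_weight (by push_cast; ring)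
    have : (1 / 1728 : ℂ) • (qExpansion 1 E₄ ^ 3 - qExpansion 1 E₆ ^ 2) * P =
        (1 / 1728 : ℂ) • (qExpansion 1 E₄ ^ 3 * P) - (1 / 1728 : ℂ) • (qExpansion 1 E₆ ^ 2 * P) := by
      rw [smul_mul_assoc, sub_mul, smul_sub]
    rw [this]
    exact Submodule.sub_mem _ (Submodule.smul_mem _ _ (Submodule.subset_span h4))
      (Submodule.smul_mem _ _ (Submodule.subset_span h6))
  | zero => simp
  | add x y _ _ hx hy => rw [mul_add]; exact Submodule.add_mem _ hx hy
  | smul a x _ hx => rw [mul_smul_comm]; exact Submodule.smul_mem _ _ hx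

/-- A monomial `E₄^a E₆^b` of any even weight `≥ 4`. -/
theorem exists_isGoodSeries_coeff_zero_eq_one {k : ℤ} (hk : 4 ≤ k) (hk2 : Even k) :
    ∃ P, IsGoodSeries k P ∧ P.coeff 0 = 1 := by
  obtain ⟨a, b, hab⟩ : ∃ a b : ℕ, (a : ℤ) * 4 + (b : ℤ) * 6 = k := by
    obtain ⟨m, hm⟩ := hk2
    rcases Int.even_or_odd' m with ⟨c, hc | hc⟩
    · refine ⟨c.toNat, 0, ?_⟩
      have : 0 ≤ c := by omega
      rw [Int.toNat_of_nonneg this]
      omega
    · refine ⟨(c - 1).toNat, 1, ?_⟩
      have : 0 ≤ c - 1 := by omega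
      rw [Int.toNat_of_nonneg this]
      omega
  refine ⟨qExpansion 1 E₄ ^ a * qExpansion 1 E₆ ^ b,
    ((isGoodSeries_E₄.pow a).mul (isGoodSeries_E₆.pow b)).congr_weight hab, ?_⟩
  have h4 : (qExpansion 1 E₄).coeff 0 = 1 := E_qExpansion_coeff_zero _ ⟨2, rfl⟩
  have h6 : (qExpansion 1 E₆).coeff 0 = 1 := E_qExpansion_coeff_zero _ ⟨3, rfl⟩
  simp only [PowerSeries.coeff_zero_eq_constantCoeff, map_mul, map_pow] at h4 h6 ⊢
  rw [h4, h6]
  simp

/-- Key structural statement: the `q`-expansion of any level one modular form is a complex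
combination of integral `q`-expansions of level one forms of the same weight. -/
theorem levelOne_qExpansion_mem_span_good :
    ∀ (n : ℕ) (k : ℤ), k ≤ n → ∀ g : ModularForm 𝒮ℒ k,
      qExpansion 1 g ∈ Submodule.span ℂ {P | IsGoodSeries k P} := by
  intro n
  induction n with
  | zero =>
    intro k hk g
    rcases lt_or_eq_of_le hk with hneg | h0
    · have hg : g = 0 :=
        rank_zero_iff_forall_zero.mp (levelOne_neg_weight_rank_zero (by exact_mod_cast hneg)) g
      rw [hg, FunLike.coe_zero, qExpansion_zero]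
      exact Submodule.zero_mem _
    · have h0' : k = 0 := by exact_mod_cast h0
      subst h0'
      obtain ⟨c, hc⟩ := ModularFormClass.levelOne_weight_zero_const g
      have hg : (g : ℍ → ℂ) = ⇑(c • (1 : ModularForm 𝒮ℒ 0)) := by
        rw [hc]
        funext z
        simp
      rw [hg, FunLike.coe_smul, ModularForm.qExpansion_smul one_pos one_mem_strictPeriods_SL,
        ModularForm.qExpansion_one]
      exact Submodule.smul_mem _ _ (Submodule.subset_span isGoodSeries_one)
  | succ n ih =>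
    intro k hk g
    rcases lt_or_eq_of_le hk with hlt | heq
    · exact ih k (by push_cast at hlt; omega) g
    · rcases Int.even_or_odd k with hev | hodd
      swap
      · rw [levelOne_odd_weight_eq_zero hodd g, FunLike.coe_zero, qExpansion_zero]
        exact Submodule.zero_mem _
      by_cases hk4 : k < 4
      · -- `k = 2`
        have hk2 : k = 2 := by
          obtain ⟨m, hm⟩ := hev
          push_cast at heq
          omega
        subst hk2
        have hg : g = 0 := rank_zero_iff_forall_zero.mp levelOne_weight_two_rank_zero g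
        rw [hg, FunLike.coe_zero, qExpansion_zero]
        exact Submodule.zero_mem _
      · push Not at hk4
        obtain ⟨P, hPgood, hP0⟩ := exists_isGoodSeries_coeff_zero_eq_one hk4 hev
        obtain ⟨-, M, hM⟩ := id hPgood
        set c₀ : ℂ := (qExpansion 1 g).coeff 0 with hc₀
        set g₁ : ModularForm 𝒮ℒ k := g - c₀ • M with hg₁
        have hq₁ : qExpansion 1 g₁ = qExpansion 1 g - c₀ • P := by
          rw [hg₁, FunLike.coe_sub, ModularForm.qExpansion_sub one_pos one_mem_strictPeriods_SL,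
            FunLike.coe_smul, ModularForm.qExpansion_smul one_pos one_mem_strictPeriods_SL, hM]
        have h0 : (qExpansion 1 g₁).coeff 0 = 0 := by
          rw [hq₁, map_sub, PowerSeries.coeff_smul, hP0, ← hc₀]
          simp
        have hfac := qExpansion_eq_qExpansion_discriminant_mul g₁ h0
        have hIH := ih (k - 12) (by push_cast at heq; omega)
          (CuspForm.discriminantEquiv (toCuspForm g₁ h0))
        have hmem := discriminant_mul_mem_span hIH
        rw [← hfac, show k - 12 + 12 = k by ring] at hmem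
        have hgq : qExpansion 1 g = qExpansion 1 g₁ + c₀ • P := by rw [hq₁]; ring
        rw [hgq]
        exact Submodule.add_mem _ hmem (Submodule.smul_mem _ _ (Submodule.subset_span hPgood))

theorem levelOne_qExpansion_mem_span (k : ℤ) (g : ModularForm 𝒮ℒ k) :
    qExpansion 1 g ∈ Submodule.span ℂ (Set.range (PowerSeries.map (Int.castRingHom ℂ))) := by
  have h := levelOne_qExpansion_mem_span_good k.toNat k (Int.self_le_toNat k) g
  exact Submodule.span_mono (fun P hP => hP.1) h

theorem exists_qExpansion_eq_map_of_mem_span (σ : ℂ →+* ℂ) (k : ℤ) {P : PowerSeries ℂ}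
    (h : P ∈ Submodule.span ℂ {P | IsGoodSeries k P}) :
    ∃ g' : ModularForm 𝒮ℒ k, qExpansion 1 g' = PowerSeries.map σ P := by
  induction h using Submodule.span_induction with
  | mem P hP =>
    obtain ⟨⟨p, rfl⟩, G, hG⟩ := hP
    refine ⟨G, ?_⟩
    rw [hG]
    ext m
    simp
  | zero => exact ⟨0, by simp [qExpansion_zero]⟩
  | add x y _ _ hx hy =>
    obtain ⟨gx, hgx⟩ := hx
    obtain ⟨gy, hgy⟩ := hy
    refine ⟨gx + gy, ?_⟩
    rw [FunLike.coe_add, ModularForm.qExpansion_add one_pos one_mem_strictPeriods_SL, hgx, hgy,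
      map_add]
  | smul a x _ hx =>
    obtain ⟨gx, hgx⟩ := hx
    refine ⟨σ a • gx, ?_⟩
    rw [FunLike.coe_smul, ModularForm.qExpansion_smul one_pos one_mem_strictPeriods_SL, hgx]
    ext m
    simp

theorem levelOne_conj (σ : ℂ →+* ℂ) (k : ℤ) (g : ModularForm 𝒮ℒ k) :
    ∃ g' : ModularForm 𝒮ℒ k, qExpansion 1 g' = PowerSeries.map σ (qExpansion 1 g) :=
  exists_qExpansion_eq_map_of_mem_span σ k
    (levelOne_qExpansion_mem_span_good k.toNat k (Int.self_le_toNat k) g)

theorem levelOne_conj_cusp (σ : ℂ →+* ℂ) (k : ℤ) (g : CuspForm 𝒮ℒ k) :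
    ∃ g' : CuspForm 𝒮ℒ k, qExpansion 1 g' = PowerSeries.map σ (qExpansion 1 g) := by
  obtain ⟨g', hg'⟩ := levelOne_conj σ k (CuspForm.toModularFormₗ g)
  have hcoe : (⇑(CuspForm.toModularFormₗ g) : ℍ → ℂ) = ⇑g := rfl
  rw [hcoe] at hg'
  have h0 : (qExpansion 1 g').coeff 0 = 0 := by
    rw [hg', PowerSeries.coeff_map,
      CuspFormClass.qExpansion_coeff_zero g one_pos one_mem_strictPeriods_SL, map_zero]
  exact ⟨toCuspForm g' h0, hg'⟩

end Fermat.Agent.H98
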