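/-
P-ES / ES-B, row ESB-2a (helper98): existence of a place of `FK` above a place of `Fk`
for a constant field extension `E : ConstExt k K Fk FK`.

* `esb_mem_of_bc_mem_span` : linear disjointness in "membership" form: if `bc f₀` lies in the
  `K`-span of `bc '' U` for a `k`-subspace `U` of `Fk`, then `f₀ ∈ U`.
* `esb_exists_valuationSubring_above` : a valuation subring of `FK` containing the constants,
  different from `⊤`, which restricts to the valuation ring of `v`.
* `esb_placeAbove : ValuationRingDVRStatement → PlaceAboveStatement`.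
-/
import Fermat.Agent.H29.ESB.Interfaces

set_option autoImplicit false

noncomputable section

open AlgebraicCurve IntermediateField

namespace Fermat.Agent.H98

open Fermat.Agent.H29

section LinearDisjoint

variable {k K Fk FK : Type} [Field k] [Field K] [Field Fk] [Field FK]
  [Algebra k Fk] [Algebra K FK]

/-- **Normal form.**  Finitely many constants of `K` can be written in terms of a family of
constants which is linearly independent over `k` (in the shape used by `ConstExt.ld`). -/
theorem esb_exists_indep_family (ι : k →+* K) (n : ℕ) (c : Fin n → K) :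
    ∃ (r : ℕ) (e : Fin r → K) (α : Fin r → k) (a : Fin n → Fin r → k),
      (∀ d : Fin r → k, ∑ j, ι (d j) * e j = 0 → ∀ j, d j = 0) ∧
      (∑ j, ι (α j) * e j = 1) ∧ ∀ i, ∑ j, ι (a i j) * e j = c i := by
  let _ : Algebra k K := ι.toAlgebra
  have hsm : ∀ (x : k) (y : K), x • y = ι x * y := fun x y => by
    rw [Algebra.smul_def]; rfl
  let V : Submodule k K := Submodule.span k (insert (1 : K) (Set.range c))
  have : Module.Finite k V :=
    Module.Finite.span_of_finite k ((Set.finite_range c).insert 1)
  let b : Module.Basis (Fin (Module.finrank k V)) k V := Module.finBasis k V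
  have h1V : (1 : K) ∈ V := Submodule.subset_span (Set.mem_insert _ _)
  have hcV : ∀ i, c i ∈ V := fun i =>
    Submodule.subset_span (Set.mem_insert_of_mem _ (Set.mem_range_self i))
  have hrepr : ∀ (x : K) (hx : x ∈ V),
      ∑ j, ι (b.repr ⟨x, hx⟩ j) * ((b j : V) : K) = x := by
    intro x hx
    have h := congrArg (fun y : V => (y : K)) (b.sum_repr ⟨x, hx⟩)
    simp only [Submodule.coe_sum, Submodule.coe_smul] at h
    refine Eq.trans ?_ h
    exact Finset.sum_congr rfl fun j _ => (hsm _ _).symm
  refine ⟨Module.finrank k V, fun j => ((b j : V) : K), fun j => b.repr ⟨1, h1V⟩ j,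
    fun i j => b.repr ⟨c i, hcV i⟩ j, ?_, hrepr 1 h1V, fun i => hrepr (c i) (hcV i)⟩
  intro d hd
  have hli := b.linearIndependent
  rw [Fintype.linearIndependent_iff] at hli
  apply hli d
  apply Subtype.ext
  simp only [Submodule.coe_sum, Submodule.coe_smul, Submodule.coe_zero]
  rw [← hd]
  exact Finset.sum_congr rfl fun j _ => hsm _ _

/-- **Linear disjointness, membership form.**  If `bc f₀` is a `K`-linear combination of
elements `bc u`, `u ∈ U`, with `U` a `k`-subspace of `Fk`, then `f₀ ∈ U`. -/
theorem esb_mem_of_bc_mem_span (E : ConstExt k K Fk FK) (U : Submodule k Fk) (f0 : Fk)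
    (h : E.bc f0 ∈ Submodule.span K (E.bc '' (U : Set Fk))) : f0 ∈ U := by
  classical
  obtain ⟨n, c, g, hg⟩ := Submodule.mem_span_set'.mp h
  choose u hu hgu using fun i => (g i).2
  obtain ⟨r, e, α, a, hind, h1, hc⟩ := esb_exists_indep_family E.ι n c
  -- the coefficients of the relation
  have hbcsm : ∀ (x : k) (y : Fk), E.bc (x • y) = algebraMap K FK (E.ι x) * E.bc y := by
    intro x y
    rw [Algebra.smul_def, map_mul, E.bc_algebraMap]
  have hrel : ∑ j, algebraMap K FK (e j) * E.bc (α j • f0 - ∑ i, a i j • u i) = 0 := by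
    have hA : ∑ j, algebraMap K FK (e j) * E.bc (α j • f0) = E.bc f0 := by
      have : ∀ j, algebraMap K FK (e j) * E.bc (α j • f0)
          = algebraMap K FK (E.ι (α j) * e j) * E.bc f0 := by
        intro j; rw [hbcsm, map_mul]; ring
      rw [Finset.sum_congr rfl fun j _ => this j, ← Finset.sum_mul, ← map_sum, h1, map_one,
        one_mul]
    have hB : ∑ j, algebraMap K FK (e j) * E.bc (∑ i, a i j • u i)
        = ∑ i, algebraMap K FK (c i) * E.bc (u i) := by
      have : ∀ j, algebraMap K FK (e j) * E.bc (∑ i, a i j • u i)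
          = ∑ i, algebraMap K FK (E.ι (a i j) * e j) * E.bc (u i) := by
        intro j
        rw [map_sum, Finset.mul_sum]
        refine Finset.sum_congr rfl fun i _ => ?_
        rw [hbcsm, map_mul]; ring
      rw [Finset.sum_congr rfl fun j _ => this j, Finset.sum_comm]
      refine Finset.sum_congr rfl fun i _ => ?_
      rw [← Finset.sum_mul, ← map_sum, hc]
    have hsum : ∑ i, algebraMap K FK (c i) * E.bc (u i) = E.bc f0 := by
      rw [← hg]
      refine Finset.sum_congr rfl fun i _ => ?_
      rw [Algebra.smul_def, hgu]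
    simp only [map_sub, mul_sub, Finset.sum_sub_distrib]
    rw [hA, hB, hsum, sub_self]
  have hz := E.ld r e (fun j => α j • f0 - ∑ i, a i j • u i) hind hrel
  -- some `α j` is nonzero
  have hex : ∃ j, α j ≠ 0 := by
    by_contra hne
    push Not at hne
    have : (1 : K) = 0 := by
      rw [← h1]
      exact Finset.sum_eq_zero fun j _ => by rw [hne j, map_zero, zero_mul]
    exact one_ne_zero this
  obtain ⟨j, hj⟩ := hex
  have hj' : α j • f0 = ∑ i, a i j • u i := sub_eq_zero.mp (hz j)
  have hmem : α j • f0 ∈ U := by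
    rw [hj']
    exact Submodule.sum_mem _ fun i _ => Submodule.smul_mem _ _ (hu i)
  have := Submodule.smul_mem U (α j)⁻¹ hmem
  rwa [smul_smul, inv_mul_cancel₀ hj, one_smul] at this

end LinearDisjoint

section Above

variable {k K Fk FK : Type} [Field k] [Field K] [Field Fk] [Field FK]
  [Algebra k Fk] [Algebra K FK]

/-- The nonunits of the valuation ring of a place, as a `k`-subspace. -/
def esbNonunits (v : Place k Fk) : Submodule k Fk where
  carrier := {f | f ∈ v.toValuationSubring.nonunits}
  add_mem' := by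
    intro a b ha hb
    simp only [Set.mem_ofPred_eq, ValuationSubring.mem_nonunits_iff] at ha hb ⊢
    exact Valuation.map_add_lt _ ha hb
  zero_mem' := by
    simp only [Set.mem_ofPred_eq, ValuationSubring.mem_nonunits_iff, map_zero]
    exact zero_lt_one
  smul_mem' := by
    intro c f hf
    simp only [Set.mem_ofPred_eq, ValuationSubring.mem_nonunits_iff] at hf ⊢
    rw [Algebra.smul_def, map_mul]
    have hc : v.toValuationSubring.valuation (algebraMap k Fk c) ≤ 1 :=
      (ValuationSubring.valuation_le_one_iff _ _).mpr (v.algebraMap_mem' c)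
    calc v.toValuationSubring.valuation (algebraMap k Fk c) * v.toValuationSubring.valuation f
        ≤ 1 * v.toValuationSubring.valuation f := mul_le_mul_left hc _
      _ = v.toValuationSubring.valuation f := one_mul _
      _ < 1 := hf

theorem mem_esbNonunits (v : Place k Fk) (f : Fk) :
    f ∈ esbNonunits v ↔ f ∈ v.toValuationSubring.nonunits := Iff.rfl

/-- A valuation subring of `FK` over the constants, `≠ ⊤`, restricting to the valuation ring of
the place `v` of `Fk`. -/
theorem esb_exists_valuationSubring_above (E : ConstExt k K Fk FK) (v : Place k Fk) :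
    ∃ B : ValuationSubring FK, (∀ a : K, algebraMap K FK a ∈ B) ∧ B ≠ ⊤ ∧
      ∀ f : Fk, E.bc f ∈ B ↔ f ∈ v.toValuationSubring := by
  classical
  set Ov := v.toValuationSubring with hOv
  let U : Submodule k Fk := esbNonunits v
  let P : Submodule K FK := Submodule.span K (E.bc '' (Ov : Set Fk))
  let J : Submodule K FK := Submodule.span K (E.bc '' (U : Set Fk))
  have h1P : (1 : FK) ∈ P :=
    Submodule.subset_span ⟨1, Ov.one_mem, map_one _⟩
  have hPP : ∀ x y : FK, x ∈ P → y ∈ P → x * y ∈ P := by
    intro x y hx hy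
    have h := Submodule.mul_mem_mul hx hy
    rw [Submodule.span_mul_span] at h
    refine Submodule.span_mono ?_ h
    rintro _ ⟨_, ⟨f, hf, rfl⟩, _, ⟨g, hg, rfl⟩, rfl⟩
    exact ⟨f * g, Ov.mul_mem _ _ hf hg, map_mul _ _ _⟩
  have hPJ : ∀ x y : FK, x ∈ P → y ∈ J → x * y ∈ J := by
    intro x y hx hy
    have h := Submodule.mul_mem_mul hx hy
    rw [Submodule.span_mul_span] at h
    refine Submodule.span_mono ?_ h
    rintro _ ⟨_, ⟨f, hf, rfl⟩, _, ⟨g, hg, rfl⟩, rfl⟩
    refine ⟨f * g, ?_, map_mul _ _ _⟩
    have hg' : Ov.valuation g < 1 := (ValuationSubring.mem_nonunits_iff _).mp hg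
    have hf' : Ov.valuation f ≤ 1 := (ValuationSubring.valuation_le_one_iff _ _).mpr hf
    show f * g ∈ Ov.nonunits
    rw [ValuationSubring.mem_nonunits_iff, map_mul]
    calc Ov.valuation f * Ov.valuation g ≤ 1 * Ov.valuation g := mul_le_mul_left hf' _
      _ = Ov.valuation g := one_mul _
      _ < 1 := hg'
  let Salg : Subalgebra K FK := P.toSubalgebra h1P hPP
  let S : Subring FK := Salg.toSubring
  have hmemS : ∀ x : FK, x ∈ S ↔ x ∈ P := fun x => Iff.rfl
  let I : Ideal S := Ideal.span {s : S | ∃ m ∈ U, (s : FK) = E.bc m}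
  have hIJ : ∀ x ∈ I, (x : FK) ∈ J := by
    intro x hx
    refine Submodule.span_induction (p := fun (y : S) _ => (y : FK) ∈ J) ?_ ?_ ?_ ?_ hx
    · rintro y ⟨m, hm, hy⟩
      rw [hy]
      exact Submodule.subset_span ⟨m, hm, rfl⟩
    · exact J.zero_mem
    · intro y z _ _ hy hz
      exact J.add_mem hy hz
    · intro s y _ hy
      exact hPJ _ _ ((hmemS _).mp s.2) hy
  have hI : I ≠ ⊤ := by
    intro htop
    have h1I : (1 : S) ∈ I := htop ▸ Submodule.mem_top
    have h1J : E.bc 1 ∈ J := by
      have := hIJ 1 h1I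
      rwa [map_one]
    have h1U := esb_mem_of_bc_mem_span E U 1 h1J
    have hlt : Ov.valuation (1 : Fk) < 1 := (ValuationSubring.mem_nonunits_iff _).mp h1U
    rw [map_one] at hlt
    exact lt_irrefl _ hlt
  obtain ⟨B, hSB, hIB⟩ := Ideal.image_subset_nonunits_valuationSubring I hI
  -- images of nonunits of `Ov` are nonunits of `B`
  have hnon : ∀ m : Fk, m ∈ Ov.nonunits → E.bc m ∈ B.nonunits := by
    intro m hm
    have hmP : E.bc m ∈ P :=
      Submodule.subset_span ⟨m, Ov.nonunits_le hm, rfl⟩
    have hmS : E.bc m ∈ S := (hmemS _).mpr hmP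
    exact hIB ⟨⟨E.bc m, hmS⟩, Ideal.subset_span ⟨m, hm, rfl⟩, rfl⟩
  have hnotmem : ∀ f : Fk, f ∉ Ov → E.bc f ∉ B := by
    intro f hf hfB
    have hf0 : f ≠ 0 := fun h => hf (h ▸ Ov.zero_mem)
    have hinv : f⁻¹ ∈ Ov.nonunits := by
      rw [ValuationSubring.mem_nonunits_iff_or]
      right
      rwa [inv_inv]
    have h2 := hnon _ hinv
    rw [ValuationSubring.mem_nonunits_iff, map_inv₀, map_inv₀] at h2
    have h3 : B.valuation (E.bc f) ≤ 1 := (ValuationSubring.valuation_le_one_iff _ _).mpr hfB
    have hne : B.valuation (E.bc f) ≠ 0 :=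
      (Valuation.ne_zero_iff _).mpr ((map_ne_zero E.bc).mpr hf0)
    have h4 : 1 < B.valuation (E.bc f) := by
      rwa [inv_lt_one₀ (zero_lt_iff.mpr hne)] at h2
    exact absurd h3 (not_le.mpr h4)
  refine ⟨B, ?_, ?_, ?_⟩
  · intro a
    apply hSB
    exact Salg.algebraMap_mem a
  · intro htop
    obtain ⟨f, hf⟩ : ∃ f : Fk, f ∉ Ov := by
      by_contra hall
      push Not at hall
      exact v.ne_top' (SetLike.ext fun x => ⟨fun _ => ValuationSubring.mem_top x, fun _ => hall x⟩)
    exact hnotmem f hf (htop ▸ ValuationSubring.mem_top _)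
  · intro f
    constructor
    · intro hfB
      by_contra hf
      exact hnotmem f hf hfB
    · intro hf
      apply hSB
      exact (hmemS _).mpr (Submodule.subset_span ⟨f, hf, rfl⟩)

/-- **ESB-2a.**  Existence of a place of `FK` above a place of `Fk`. -/
theorem esb_placeAbove (h1 : ValuationRingDVRStatement) : PlaceAboveStatement := by
  intro k K Fk FK _ _ _ _ _ _ _ _ _ _ E v
  obtain ⟨B, hK, hne, hB⟩ := esb_exists_valuationSubring_above E v
  obtain ⟨w, hw⟩ := h1 K FK (E.bc E.x) E.bcx_transc E.bcx_fin B hK hne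
  exact ⟨w, fun f => by rw [hw]; exact hB f⟩

end Above

end Fermat.Agent.H98

end
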