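/-
S16 (P-S16), row L2-TR (independent attempt, helper98): the other `SL₂(ℤ)`-conjugates of a
weight-2 form on `Γ₀(p)`.

Main results:
* `s16_fricke_eq_neg_heckeU` : `(H ∣ S) ∣ diag(p,1) = - U_p H` for `H ∈ M₂(Γ₀(p))`
  (Fricke involution = minus `U_p`; consequence of `M₂(SL₂(ℤ)) = 0`);
* `s16_slash_S_apply` : `(H ∣ S)(p z) = -(1/p) (U_p H)(z)`;
* `s16_conjStatement` : `Fermat.Agent.H1.S16L2.ConjStatement`.
-/
import Mathlib
import Fermat.Prelude.Def_ModularForm_HeckeOperatorForms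
import Fermat.Prelude.Thm_ModularFormClass_qCoeff_heckeU
import Fermat.Prelude.Thm_CongruenceSubgroup_one_mem_strictPeriods_Gamma0
import Fermat.Agent.H1.S16L2.Interfaces

set_option autoImplicit false

namespace Fermat.Agent.H98

open UpperHalfPlane CongruenceSubgroup ModularForm
open scoped MatrixGroups ModularForm Real Manifold

noncomputable section

/-- Equality in `GL(2,ℝ)` from equality of matrices. -/
theorem s16_gl_ext {A B : GL (Fin 2) ℝ}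
    (h : (A : Matrix (Fin 2) (Fin 2) ℝ) = (B : Matrix (Fin 2) (Fin 2) ℝ)) : A = B :=
  Units.ext h

/-- The matrix of the image of an element of `SL(2,ℤ)` in `GL(2,ℝ)`. -/
theorem s16_coe_SL (γ : SL(2, ℤ)) :
    (((γ : GL (Fin 2) ℝ)) : Matrix (Fin 2) (Fin 2) ℝ) =
      !![((γ 0 0 : ℤ) : ℝ), ((γ 0 1 : ℤ) : ℝ); ((γ 1 0 : ℤ) : ℝ), ((γ 1 1 : ℤ) : ℝ)] := by
  ext i j
  fin_cases i <;> fin_cases j <;> simp

/-- An element of `SL(2,ℤ)` from its four entries. -/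
def s16_mkSL (a b c d : ℤ) (h : a * d - b * c = 1) : SL(2, ℤ) :=
  ⟨!![a, b; c, d], by rw [Matrix.det_fin_two_of]; exact h⟩

@[simp] theorem s16_mkSL_val (a b c d : ℤ) (h : a * d - b * c = 1) :
    ((s16_mkSL a b c d h : SL(2, ℤ)) : Matrix (Fin 2) (Fin 2) ℤ) = !![a, b; c, d] := rfl

theorem s16_mkSL_mem_Gamma0 (p : ℕ) (a b c d : ℤ) (h : a * d - b * c = 1) (hc : (p : ℤ) ∣ c) :
    s16_mkSL a b c d h ∈ Gamma0 p := by
  rw [Gamma0_mem]
  have : ((s16_mkSL a b c d h : SL(2, ℤ)) 1 0 : ℤ) = c := rfl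
  rw [this]
  exact (ZMod.intCast_zmod_eq_zero_iff_dvd c p).mpr hc

theorem s16_coe_mkSL (a b c d : ℤ) (h : a * d - b * c = 1) :
    (((s16_mkSL a b c d h : SL(2, ℤ)) : GL (Fin 2) ℝ) : Matrix (Fin 2) (Fin 2) ℝ) =
      !![(a : ℝ), (b : ℝ); (c : ℝ), (d : ℝ)] := by
  rw [s16_coe_SL]
  rfl

variable {p : ℕ}

/-- Invariance of a form on `Γ₀(p)` under the image in `GL(2,ℝ)` of an element of `Γ₀(p)`. -/
theorem s16_slash_Gamma0 (H : ModularForm (Gamma0 p) 2) (γ : SL(2, ℤ)) (hγ : γ ∈ Gamma0 p) :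
    (⇑H) ∣[(2 : ℤ)] (γ : GL (Fin 2) ℝ) = ⇑H :=
  SlashInvariantFormClass.slash_action_eq H _ (Subgroup.mem_map_of_mem _ hγ)

/-- `S` as an element of `GL(2,ℝ)`. -/
def s16_S : GL (Fin 2) ℝ := ((ModularGroup.S : SL(2, ℤ)) : GL (Fin 2) ℝ)

theorem s16_S_val : ((s16_S : GL (Fin 2) ℝ) : Matrix (Fin 2) (Fin 2) ℝ) = !![0, -1; 1, 0] := by
  rw [s16_S, s16_coe_SL]
  simp [ModularGroup.S]

theorem s16_T_val :
    (((ModularGroup.T : SL(2, ℤ)) : GL (Fin 2) ℝ) : Matrix (Fin 2) (Fin 2) ℝ) = !![1, 1; 0, 1] := by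
  rw [s16_coe_SL]
  simp [ModularGroup.T]

/-- The Fricke translate `(H ∣ S) ∣ diag(p,1)`. -/
def s16_fricke (p : ℕ) (H : ℍ → ℂ) : ℍ → ℂ :=
  (H ∣[(2 : ℤ)] s16_S) ∣[(2 : ℤ)] heckeDiagMatrix p

theorem s16_fricke_eq (p : ℕ) (H : ℍ → ℂ) :
    s16_fricke p H = H ∣[(2 : ℤ)] (s16_S * heckeDiagMatrix p) := by
  rw [s16_fricke, SlashAction.slash_mul]

theorem s16_SD_val (hp : p ≠ 0) :
    ((s16_S * heckeDiagMatrix p : GL (Fin 2) ℝ) : Matrix (Fin 2) (Fin 2) ℝ) =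
      !![0, -1; (p : ℝ), 0] := by
  rw [Units.val_mul, s16_S_val, val_heckeDiagMatrix hp]
  ext i j
  fin_cases i <;> fin_cases j <;> simp [Matrix.mul_apply, Fin.sum_univ_two]

/-- `(S D) T = γ₁ (S D)` with `γ₁ = [[1,0],[-p,1]] ∈ Γ₀(p)`. -/
theorem s16_SD_mul_T (hp : p ≠ 0) :
    (s16_S * heckeDiagMatrix p) * ((ModularGroup.T : SL(2, ℤ)) : GL (Fin 2) ℝ) =
      ((s16_mkSL 1 0 (-(p : ℤ)) 1 (by ring) : SL(2, ℤ)) : GL (Fin 2) ℝ) *
        (s16_S * heckeDiagMatrix p) := by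
  apply s16_gl_ext
  simp only [Units.val_mul, s16_S_val, val_heckeDiagMatrix hp, s16_T_val, s16_coe_mkSL]
  ext i j
  fin_cases i <;> fin_cases j <;> simp [Matrix.mul_apply, Fin.sum_univ_two]

/-- `(S D) S = (-1) g₀`. -/
theorem s16_SD_mul_S (hp : p ≠ 0) :
    (s16_S * heckeDiagMatrix p) * s16_S =
      ((s16_mkSL (-1) 0 0 (-1) (by ring) : SL(2, ℤ)) : GL (Fin 2) ℝ) * heckeMatrix p 0 := by
  apply s16_gl_ext
  simp only [Units.val_mul, s16_S_val, val_heckeDiagMatrix hp, s16_coe_mkSL, val_heckeMatrix hp]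
  ext i j
  fin_cases i <;> fin_cases j <;> simp [Matrix.mul_apply, Fin.sum_univ_two]

/-- `g₀ S = S D`. -/
theorem s16_g0_mul_S (hp : p ≠ 0) :
    heckeMatrix p 0 * s16_S = s16_S * heckeDiagMatrix p := by
  apply s16_gl_ext
  simp only [Units.val_mul, s16_S_val, val_heckeDiagMatrix hp, val_heckeMatrix hp]
  ext i j
  fin_cases i <;> fin_cases j <;> simp [Matrix.mul_apply, Fin.sum_univ_two]

/-- `g_j S = γ g_{j'}` with `γ = [[j, -m],[p, -j']]`, `p m = j j' + 1`. -/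
theorem s16_gj_mul_S (hp : p ≠ 0) (j j' : ℕ) (m : ℤ) (hm : (p : ℤ) * m = j * j' + 1) :
    heckeMatrix p j * s16_S =
      ((s16_mkSL (j : ℤ) (-m) (p : ℤ) (-(j' : ℤ)) (by linear_combination hm) : SL(2, ℤ)) :
          GL (Fin 2) ℝ) * heckeMatrix p j' := by
  apply s16_gl_ext
  simp only [Units.val_mul, s16_S_val, s16_coe_mkSL, val_heckeMatrix hp]
  have hm' : (p : ℝ) * (m : ℝ) = (j : ℝ) * (j' : ℝ) + 1 := by exact_mod_cast hm
  ext a b
  fin_cases a <;> fin_cases b <;> simp [Matrix.mul_apply, Fin.sum_univ_two]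
  · linear_combination hm'
  · ring

/-! ### The involution `j ↦ -1/j` on `{1, …, p-1}` -/

/-- `j ↦ -1/j mod p`, as a natural number `< p`. -/
def s16_inv (p : ℕ) (j : ℕ) : ℕ := (-((j : ZMod p))⁻¹).val

section inv

variable [Fact p.Prime]

theorem s16_cast_ne_zero {j : ℕ} (hj : j ∈ Finset.Ico 1 p) : (j : ZMod p) ≠ 0 := by
  rw [Finset.mem_Ico] at hj
  intro h
  rw [ZMod.natCast_eq_zero_iff] at h
  exact absurd (Nat.le_of_dvd (by omega) h) (by omega)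

theorem s16_cast_inv (j : ℕ) : ((s16_inv p j : ℕ) : ZMod p) = -((j : ZMod p))⁻¹ := by
  rw [s16_inv, ZMod.natCast_zmod_val]

theorem s16_inv_mem {j : ℕ} (hj : j ∈ Finset.Ico 1 p) : s16_inv p j ∈ Finset.Ico 1 p := by
  have h0 := s16_cast_ne_zero hj
  rw [Finset.mem_Ico]
  refine ⟨?_, ZMod.val_lt _⟩
  rw [Nat.one_le_iff_ne_zero]
  intro h
  have h1 := s16_cast_inv (p := p) j
  rw [h, Nat.cast_zero] at h1
  have h2 : ((j : ZMod p))⁻¹ = 0 := by
    have := congrArg (fun x => -x) h1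
    simpa using this.symm
  exact h0 (inv_eq_zero.mp h2)

theorem s16_inv_inv {j : ℕ} (hj : j ∈ Finset.Ico 1 p) : s16_inv p (s16_inv p j) = j := by
  have h0 := s16_cast_ne_zero hj
  have hlt : j < p := (Finset.mem_Ico.mp hj).2
  have h1 : ((s16_inv p (s16_inv p j) : ℕ) : ZMod p) = (j : ZMod p) := by
    rw [s16_cast_inv, s16_cast_inv, inv_neg, inv_inv, neg_neg]
  have h2 : s16_inv p (s16_inv p j) < p := ZMod.val_lt _
  have := congrArg ZMod.val h1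
  rwa [ZMod.val_natCast_of_lt h2, ZMod.val_natCast_of_lt hlt] at this

theorem s16_inv_dvd {j : ℕ} (hj : j ∈ Finset.Ico 1 p) :
    (p : ℤ) ∣ (j : ℤ) * (s16_inv p j : ℤ) + 1 := by
  have h0 := s16_cast_ne_zero hj
  rw [← ZMod.intCast_zmod_eq_zero_iff_dvd]
  push_cast
  rw [s16_cast_inv, mul_neg, mul_inv_cancel₀ h0]
  ring

theorem s16_sum_inv {M : Type*} [AddCommMonoid M] (F : ℕ → M) :
    ∑ j ∈ Finset.Ico 1 p, F (s16_inv p j) = ∑ j ∈ Finset.Ico 1 p, F j :=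
  Finset.sum_nbij' (s16_inv p) (s16_inv p) (fun _ h => s16_inv_mem h) (fun _ h => s16_inv_mem h)
    (fun _ h => s16_inv_inv h) (fun _ h => s16_inv_inv h) (fun _ _ => rfl)

end inv

/-! ### The level-one form `Ψ = (H ∣ S D) + U_p H` -/

/-- `Ψ = (H ∣ S) ∣ diag(p,1) + U_p H`. -/
def s16_Psi (p : ℕ) (H : ℍ → ℂ) : ℍ → ℂ := s16_fricke p H + heckeU 2 p H

theorem s16_T_mem_Gamma0 (p : ℕ) : (ModularGroup.T : SL(2, ℤ)) ∈ Gamma0 p := by
  rw [Gamma0_mem]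
  simp [ModularGroup.T]

theorem s16_Psi_slash_T (hp : p ≠ 0) (H : ModularForm (Gamma0 p) 2) :
    (s16_Psi p ⇑H) ∣[(2 : ℤ)] (ModularGroup.T : SL(2, ℤ)) = s16_Psi p ⇑H := by
  rw [SL_slash, s16_Psi, SlashAction.add_slash]
  congr 1
  · rw [s16_fricke_eq, ← SlashAction.slash_mul, s16_SD_mul_T hp, SlashAction.slash_mul,
      s16_slash_Gamma0 H _ (s16_mkSL_mem_Gamma0 p _ _ _ _ _ (by simp))]
  · exact heckeU_slash_eq_self_of_mem_Gamma0 2 (dvd_refl p)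
      (fun γ hγ => SlashInvariantFormClass.slash_action_eq H γ hγ) _
      (Subgroup.mem_map_of_mem _ (s16_T_mem_Gamma0 p))

theorem s16_Psi_slash_S [Fact p.Prime] (H : ModularForm (Gamma0 p) 2) :
    (s16_Psi p ⇑H) ∣[(2 : ℤ)] (ModularGroup.S : SL(2, ℤ)) = s16_Psi p ⇑H := by
  have hp : p ≠ 0 := (Fact.out : p.Prime).ne_zero
  have hpos : 0 < p := Nat.pos_of_ne_zero hp
  have hS : (⇑H ∣[(2 : ℤ)] (ModularGroup.S : SL(2, ℤ))) = ⇑H ∣[(2 : ℤ)] s16_S := SL_slash _ _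
  -- the Fricke part goes to the `j = 0` term
  have h1 : (s16_fricke p ⇑H) ∣[(2 : ℤ)] s16_S = ⇑H ∣[(2 : ℤ)] heckeMatrix p 0 := by
    rw [s16_fricke_eq, ← SlashAction.slash_mul, s16_SD_mul_S hp, SlashAction.slash_mul,
      s16_slash_Gamma0 H _ (s16_mkSL_mem_Gamma0 p _ _ _ _ _ (by simp))]
  -- the `j = 0` term goes to the Fricke part
  have h2 : (⇑H ∣[(2 : ℤ)] heckeMatrix p 0) ∣[(2 : ℤ)] s16_S = s16_fricke p ⇑H := by
    rw [← SlashAction.slash_mul, s16_g0_mul_S hp, s16_fricke_eq]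
  -- the other terms are permuted
  have h3 : ∀ j ∈ Finset.Ico 1 p, (⇑H ∣[(2 : ℤ)] heckeMatrix p j) ∣[(2 : ℤ)] s16_S =
      ⇑H ∣[(2 : ℤ)] heckeMatrix p (s16_inv p j) := by
    intro j hj
    obtain ⟨m, hm⟩ := s16_inv_dvd hj
    rw [← SlashAction.slash_mul, s16_gj_mul_S hp j (s16_inv p j) m hm.symm,
      SlashAction.slash_mul, s16_slash_Gamma0 H _ (s16_mkSL_mem_Gamma0 p _ _ _ _ _ (by simp))]
  have hsplit : ∀ F : ℕ → (ℍ → ℂ), ∑ j ∈ Finset.range p, F j = F 0 + ∑ j ∈ Finset.Ico 1 p, F j := by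
    intro F
    rw [Finset.range_eq_Ico, Finset.sum_eq_sum_Ico_succ_bot hpos]
  change (s16_Psi p ⇑H) ∣[(2 : ℤ)] ((ModularGroup.S : SL(2, ℤ)) : GL (Fin 2) ℝ) = _
  change (s16_Psi p ⇑H) ∣[(2 : ℤ)] s16_S = _
  rw [s16_Psi, SlashAction.add_slash, h1, heckeU_def, SlashAction.sum_slash, hsplit, hsplit, h2,
    Finset.sum_congr rfl h3, s16_sum_inv (fun j => ⇑H ∣[(2 : ℤ)] heckeMatrix p j)]
  abel

theorem s16_Psi_mdiff (H : ModularForm (Gamma0 p) 2) : MDiff (s16_Psi p ⇑H) := by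
  refine MDifferentiable.add ?_ (mdifferentiable_heckeU (ModularFormClass.holo H) 2 p)
  exact ((ModularFormClass.holo H).slash 2 s16_S).slash 2 (heckeDiagMatrix p)

theorem s16_fricke_apply (hp : p ≠ 0) (H : ℍ → ℂ) (w : ℍ) :
    s16_fricke p H w = (p : ℂ) * (H ∣[(2 : ℤ)] s16_S) (heckeDiagMatrix p • w) := by
  rw [s16_fricke, slash_heckeDiagMatrix_apply 2 hp]
  norm_num

theorem s16_im_diag_smul (hp : p ≠ 0) (w : ℍ) :
    (heckeDiagMatrix p • w).im = (p : ℝ) * w.im := by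
  have h := congrArg Complex.im (coe_heckeDiagMatrix_smul hp w)
  rw [UpperHalfPlane.coe_im] at h
  rw [h]
  simp

theorem s16_fricke_bdd [NeZero p] (H : ModularForm (Gamma0 p) 2) :
    IsBoundedAtImInfty (s16_fricke p ⇑H) := by
  have hp : p ≠ 0 := NeZero.ne p
  have h1 : IsBoundedAtImInfty (⇑H ∣[(2 : ℤ)] s16_S) := by
    have := ModularFormClass.bdd_at_infty_slash H (ModularGroup.S : SL(2, ℤ))
    rwa [SL_slash] at this
  rw [isBoundedAtImInfty_iff] at h1 ⊢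
  obtain ⟨M, A, hMA⟩ := h1
  refine ⟨(p : ℝ) * M, A, fun z hz => ?_⟩
  rw [s16_fricke_apply hp, norm_mul, Complex.norm_natCast]
  refine mul_le_mul_of_nonneg_left (hMA _ ?_) (Nat.cast_nonneg p)
  rw [s16_im_diag_smul hp]
  have h1p : (1 : ℝ) ≤ p := by exact_mod_cast Nat.one_le_iff_ne_zero.mpr hp
  have hz0 : 0 < z.im := z.im_pos
  nlinarith

theorem s16_heckeU_bdd [NeZero p] (H : ModularForm (Gamma0 p) 2) :
    IsBoundedAtImInfty (heckeU 2 p ⇑H) :=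
  ModularFormClass.bdd_at_infty (heckeULin 2 (dvd_refl p) H)

theorem s16_Psi_bdd [NeZero p] (H : ModularForm (Gamma0 p) 2) :
    IsBoundedAtImInfty (s16_Psi p ⇑H) :=
  (s16_fricke_bdd H).add (s16_heckeU_bdd H)

/-- `Ψ` as a level-one modular form of weight 2. -/
def s16_PsiForm [Fact p.Prime] (H : ModularForm (Gamma0 p) 2) : ModularForm 𝒮ℒ 2 :=
  haveI : NeZero p := ⟨(Fact.out : p.Prime).ne_zero⟩
  have hinv : ∀ γ : SL(2, ℤ), (s16_Psi p ⇑H) ∣[(2 : ℤ)] γ = s16_Psi p ⇑H :=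
    SlashInvariantForm.slash_action_generators_SL2Z (s16_Psi_slash_S H)
      (s16_Psi_slash_T (Fact.out : p.Prime).ne_zero H)
  { toFun := s16_Psi p ⇑H
    slash_action_eq' := by
      rintro γ ⟨γ', rfl⟩
      exact hinv γ'
    holo' := s16_Psi_mdiff H
    bdd_at_cusps' := by
      intro c hc
      rw [OnePoint.isBoundedAt_iff_forall_SL2Z hc]
      intro γ _
      rw [hinv γ]
      exact s16_Psi_bdd H }

theorem s16_Psi_eq_zero [Fact p.Prime] (H : ModularForm (Gamma0 p) 2) (w : ℍ) :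
    s16_Psi p ⇑H w = 0 := by
  have h := rank_zero_iff_forall_zero.mp levelOne_weight_two_rank_zero (s16_PsiForm H)
  have h2 : (s16_PsiForm H) w = 0 := by rw [h]; rfl
  exact h2

/-- **Fricke = −U_p** on `M₂(Γ₀(p))`. -/
theorem s16_fricke_eq_neg_heckeU [Fact p.Prime] (H : ModularForm (Gamma0 p) 2) (w : ℍ) :
    s16_fricke p ⇑H w = -heckeU 2 p ⇑H w := by
  have h := s16_Psi_eq_zero H w
  rw [s16_Psi, Pi.add_apply] at h
  linear_combination h

/-- `(H ∣ S)(p w) = -(1/p) (U_p H)(w)`. -/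
theorem s16_slash_S_apply [Fact p.Prime] (H : ModularForm (Gamma0 p) 2) (w : ℍ) :
    (⇑H ∣[(2 : ℤ)] s16_S) (heckeDiagMatrix p • w) = -(p : ℂ)⁻¹ * heckeU 2 p ⇑H w := by
  have hp : p ≠ 0 := (Fact.out : p.Prime).ne_zero
  have hpc : (p : ℂ) ≠ 0 := by exact_mod_cast hp
  have h := s16_fricke_eq_neg_heckeU H w
  rw [s16_fricke_apply hp] at h
  field_simp
  linear_combination h

/-- The point `(z + j)/p` of the upper half plane. -/
def s16_pt (p : ℕ) (hp : p ≠ 0) (j : ℤ) (z : ℍ) : ℍ :=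
  ⟨((z : ℂ) + j) / p, by
    have hpr : (0 : ℝ) < p := by exact_mod_cast Nat.pos_of_ne_zero hp
    have h1 : (((z : ℂ) + j) / p).im = z.im / p := by
      rw [show ((z : ℂ) + j) / p = (((z : ℂ) + j)) * ((p : ℝ)⁻¹ : ℝ) by
        push_cast; rw [div_eq_mul_inv]]
      rw [Complex.im_mul_ofReal]
      simp [div_eq_mul_inv]
    rw [h1]
    exact div_pos z.im_pos hpr⟩

theorem s16_pt_coe (hp : p ≠ 0) (j : ℤ) (z : ℍ) :
    ((s16_pt p hp j z : ℍ) : ℂ) = ((z : ℂ) + j) / p := rfl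

theorem s16_diag_smul_pt (hp : p ≠ 0) (j : ℤ) (z : ℍ) :
    heckeDiagMatrix p • s16_pt p hp j z = ModularGroup.T ^ j • z := by
  have hpc : (p : ℂ) ≠ 0 := by exact_mod_cast hp
  apply UpperHalfPlane.ext
  rw [coe_heckeDiagMatrix_smul hp, s16_pt_coe, UpperHalfPlane.modular_T_zpow_smul,
    UpperHalfPlane.coe_vadd]
  field_simp
  push_cast
  ring

theorem s16_slash_ST_apply (H : ℍ → ℂ) (j : ℤ) (z : ℍ) :
    (H ∣[(2 : ℤ)] (ModularGroup.S * ModularGroup.T ^ j)) z =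
      (H ∣[(2 : ℤ)] s16_S) (ModularGroup.T ^ j • z) := by
  rw [SlashAction.slash_mul, SL_slash_apply]
  have hd : denom ((ModularGroup.T ^ j : SL(2, ℤ)) : GL (Fin 2) ℝ) (z : ℂ) = 1 := by
    have hm := s16_coe_SL (ModularGroup.T ^ j)
    rw [ModularGroup.coe_T_zpow] at hm
    rw [denom, hm]
    simp
  rw [hd, one_zpow, mul_one]
  rfl

/-- The `q`-expansion of `U_p H` as a convergent series. -/
theorem s16_hasSum_heckeU [Fact p.Prime] (H : ModularForm (Gamma0 p) 2) (w : ℍ) :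
    HasSum (fun n : ℕ => PowerSeries.coeff (p * n) (qExpansion 1 (⇑H)) *
        Complex.exp (2 * π * Complex.I * n * (w : ℂ)))
      (heckeU 2 p ⇑H w) := by
  have hp : p ≠ 0 := (Fact.out : p.Prime).ne_zero
  have : NeZero p := ⟨hp⟩
  have hΓ := CongruenceSubgroup.one_mem_strictPeriods_Gamma0 p
  have h := ModularForm.hasSum_qExpansion (heckeULin 2 (dvd_refl p) H) one_pos hΓ w
  have hc : ∀ n : ℕ, PowerSeries.coeff n (qExpansion 1 (⇑(heckeULin 2 (dvd_refl p) H))) =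
      PowerSeries.coeff (p * n) (qExpansion 1 (⇑H)) := by
    intro n
    have := ModularFormClass.qCoeff_heckeU H hΓ hp n
    rw [coeffHeckeU_apply, mul_comm n p] at this
    exact this
  have hq : ∀ n : ℕ, Function.Periodic.qParam 1 (w : ℂ) ^ n =
      Complex.exp (2 * π * Complex.I * n * (w : ℂ)) := by
    intro n
    rw [Function.Periodic.qParam, ← Complex.exp_nat_mul]
    congr 1
    push_cast
    ring
  have h2 : (fun n : ℕ => PowerSeries.coeff (p * n) (qExpansion 1 (⇑H)) *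
        Complex.exp (2 * π * Complex.I * n * (w : ℂ))) =
      fun m => PowerSeries.coeff m (qExpansion 1 (⇑(heckeULin 2 (dvd_refl p) H))) *
        Function.Periodic.qParam 1 (w : ℂ) ^ m := by
    funext n
    rw [hc, hq]
  rw [h2]
  exact h

/-- **(TR)** the other `SL₂(ℤ)`-conjugates of a weight-2 form on `Γ₀(p)`. -/
theorem s16_conjStatement : Fermat.Agent.H1.S16L2.ConjStatement := by
  intro p hpp H j z
  have : Fact p.Prime := ⟨hpp⟩
  have hp : p ≠ 0 := hpp.ne_zero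
  have hpc : (p : ℂ) ≠ 0 := by exact_mod_cast hp
  rw [s16_slash_ST_apply, ← s16_diag_smul_pt hp j z, s16_slash_S_apply H]
  have h := (s16_hasSum_heckeU H (s16_pt p hp j z)).mul_left (-(p : ℂ)⁻¹)
  have hfun : (fun n : ℕ => -(p : ℂ)⁻¹ * PowerSeries.coeff (p * n) (qExpansion 1 (⇑H)) *
        Complex.exp (2 * π * Complex.I * n * ((z : ℂ) + j) / p)) =
      fun n : ℕ => -(p : ℂ)⁻¹ * (PowerSeries.coeff (p * n) (qExpansion 1 (⇑H)) *
        Complex.exp (2 * π * Complex.I * n * ((s16_pt p hp j z : ℍ) : ℂ))) := by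
    funext n
    rw [s16_pt_coe, mul_assoc]
    congr 3
    ring
  rw [hfun]
  exact h

end

end Fermat.Agent.H98
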