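import Mathlib

set_option autoImplicit false

namespace Fermat.Agent.H98

open Complex Metric Set

/-- A holomorphic function on the upper half plane has a primitive there. -/
theorem exists_primitive_uhp (f : ℂ → ℂ) (hf : DifferentiableOn ℂ f {z : ℂ | 0 < z.im}) :
    ∃ F : ℂ → ℂ, ∀ z : ℂ, 0 < z.im → HasDerivAt F (f z) z := by
  classical
  -- the exhausting family of discs
  set B : ℕ → Set ℂ := fun n => ball (((n : ℝ) + 1 : ℝ) * I) ((n : ℝ) + 1) with hB
  have hmemB : ∀ (n : ℕ) (z : ℂ), z ∈ B n ↔ z.re ^ 2 + z.im ^ 2 < 2 * ((n : ℝ) + 1) * z.im := by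
    intro n z
    have hpos : (0 : ℝ) < (n : ℝ) + 1 := by positivity
    simp only [hB, mem_ball, Complex.dist_eq]
    have hsq : ‖z - (((n : ℝ) + 1 : ℝ) : ℂ) * I‖ < (n : ℝ) + 1 ↔
        ‖z - (((n : ℝ) + 1 : ℝ) : ℂ) * I‖ ^ 2 < ((n : ℝ) + 1) ^ 2 :=
      ⟨fun h => pow_lt_pow_left₀ h (norm_nonneg _) two_ne_zero,
        fun h => lt_of_pow_lt_pow_left₀ 2 hpos.le h⟩
    rw [hsq, Complex.sq_norm, Complex.normSq_apply]
    simp only [sub_re, sub_im, mul_re, mul_im, ofReal_re, ofReal_im, I_re, I_im, mul_zero,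
      mul_one, sub_zero, add_zero]
    constructor <;> intro h <;> nlinarith
  have hBsub : ∀ n, B n ⊆ {z : ℂ | 0 < z.im} := by
    intro n z hz
    rw [hmemB] at hz
    have hpos : (0 : ℝ) < (n : ℝ) + 1 := by positivity
    simp only [Set.mem_ofPred_eq]
    by_contra hneg
    push Not at hneg
    nlinarith [sq_nonneg z.re, sq_nonneg z.im]
  have hImem : ∀ n, I ∈ B n := by
    intro n
    rw [hmemB]
    have : (0 : ℝ) ≤ (n : ℝ) := Nat.cast_nonneg n
    simp only [I_re, I_im]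
    nlinarith
  have hcover : ∀ z : ℂ, 0 < z.im → ∃ n, z ∈ B n := by
    intro z hz
    refine ⟨⌈(z.re ^ 2 + z.im ^ 2) / (2 * z.im)⌉₊, ?_⟩
    rw [hmemB]
    have h1 : (z.re ^ 2 + z.im ^ 2) / (2 * z.im) ≤ ⌈(z.re ^ 2 + z.im ^ 2) / (2 * z.im)⌉₊ :=
      Nat.le_ceil _
    have h2 : (z.re ^ 2 + z.im ^ 2) / (2 * z.im) <
        (⌈(z.re ^ 2 + z.im ^ 2) / (2 * z.im)⌉₊ : ℝ) + 1 := by linarith
    rw [div_lt_iff₀ (by positivity)] at h2
    linarith
  have hmono : ∀ n m : ℕ, n ≤ m → B n ⊆ B m := by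
    intro n m hnm z hz
    rw [hmemB] at hz ⊢
    have hzim : 0 < z.im := hBsub n ((hmemB n z).2 hz)
    have hnm' : (n : ℝ) ≤ (m : ℝ) := by exact_mod_cast hnm
    nlinarith
  -- primitives on each disc, normalised at `I`
  have hprim : ∀ n, ∃ g : ℂ → ℂ, g I = 0 ∧ ∀ z ∈ B n, HasDerivAt g (f z) z := fun n =>
    ((hf.mono (hBsub n)).isExactOn_ball).with_val_at I 0
  choose g hgI hg using hprim
  have hagree : ∀ n m : ℕ, n ≤ m → EqOn (g n) (g m) (B n) := by
    intro n m hnm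
    have hconv : IsPreconnected (B n) := (convex_ball _ _).isPreconnected
    have hd1 : DifferentiableOn ℂ (g n) (B n) := fun z hz =>
      (hg n z hz).differentiableAt.differentiableWithinAt
    have hd2 : DifferentiableOn ℂ (g m) (B n) := fun z hz =>
      (hg m z (hmono n m hnm hz)).differentiableAt.differentiableWithinAt
    refine IsOpen.eqOn_of_deriv_eq isOpen_ball hconv hd1 hd2 ?_ (hImem n) ?_
    · intro z hz
      rw [(hg n z hz).deriv, (hg m z (hmono n m hnm hz)).deriv]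
    · rw [hgI, hgI]
  -- glue
  let F : ℂ → ℂ := fun z => if h : ∃ n, z ∈ B n then g (Nat.find h) z else 0
  refine ⟨F, fun z hz => ?_⟩
  obtain ⟨n, hn⟩ := hcover z hz
  have hFeq : ∀ w ∈ B n, F w = g n w := by
    intro w hw
    have hex : ∃ n, w ∈ B n := ⟨n, hw⟩
    simp only [F, dif_pos hex]
    exact hagree _ _ (Nat.find_min' hex hw) (Nat.find_spec hex)
  refine (hg n z hn).congr_of_eventuallyEq ?_
  filter_upwards [isOpen_ball.mem_nhds hn] with w hw using hFeq w hw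

end Fermat.Agent.H98
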