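import Mathlib

set_option autoImplicit false

namespace Fermat.Agent.H98

open Polynomial

/-- The `n`-th `X`-derivative of `(X - z)^w`, evaluated at `X = z`, in expanded form. -/
theorem sum_choose_descFactorial_eval (w n : ℕ) (z : ℂ) :
    ∑ j ∈ Finset.range (w + 1),
        ((w.choose j : ℂ) * (-z) ^ (w - j)) * ((j.descFactorial n : ℂ) * z ^ (j - n)) =
      (w.descFactorial n : ℂ) * (0 : ℂ) ^ (w - n) := by
  have hexp : ((X : ℂ[X]) - C z) ^ w =
      ∑ j ∈ Finset.range (w + 1), C ((w.choose j : ℂ) * (-z) ^ (w - j)) * X ^ j := by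
    rw [sub_eq_add_neg, ← C_neg, add_pow]
    refine Finset.sum_congr rfl fun j _ => ?_
    rw [C_mul, C_pow, ← C_eq_natCast]
    ring
  have h1 : eval z (derivative^[n] (((X : ℂ[X]) - C z) ^ w)) =
      (w.descFactorial n : ℂ) * (0 : ℂ) ^ (w - n) := by
    rw [iterate_derivative_X_sub_pow]
    simp
  rw [← h1, hexp, iterate_derivative_sum, eval_finsetSum]
  refine Finset.sum_congr rfl fun j _ => ?_
  rw [iterate_derivative_C_mul, iterate_derivative_X_pow_eq_C_mul]
  simp

theorem hasDerivAt_descFactorial_mul_pow (j n : ℕ) (z : ℂ) :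
    HasDerivAt (fun z : ℂ => (j.descFactorial n : ℂ) * z ^ (j - n))
      ((j.descFactorial (n + 1) : ℂ) * z ^ (j - (n + 1))) z := by
  have h := (hasDerivAt_pow (j - n) z).const_mul (j.descFactorial n : ℂ)
  refine h.congr_deriv ?_
  rw [Nat.descFactorial_succ]
  push_cast
  rw [show j - (n + 1) = j - n - 1 from rfl]
  ring

/-- Bol-type identity, local form. -/
theorem bol_local (w : ℕ) (f : ℂ → ℂ) (c : ℕ → ℂ → ℂ) (U : Set ℂ) (hU : IsOpen U)
    (hc : ∀ j, ∀ z ∈ U, HasDerivAt (c j) (f z * ((w.choose j : ℂ) * (-z) ^ (w - j))) z)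
    (hG : ∀ z ∈ U, ∑ j ∈ Finset.range (w + 1), c j z * z ^ j = 0) : ∀ z ∈ U, f z = 0 := by
  -- `F n z` is the `n`-th `X`-derivative of `∑ c_j(z) X^j` evaluated at `X = z`.
  set F : ℕ → ℂ → ℂ := fun n z =>
    ∑ j ∈ Finset.range (w + 1), c j z * ((j.descFactorial n : ℂ) * z ^ (j - n)) with hF
  have hderiv : ∀ n, ∀ z ∈ U,
      HasDerivAt (F n) (f z * ((w.descFactorial n : ℂ) * (0 : ℂ) ^ (w - n)) + F (n + 1) z) z := by
    intro n z hz
    have hterm : ∀ j ∈ Finset.range (w + 1),
        HasDerivAt (fun z => c j z * ((j.descFactorial n : ℂ) * z ^ (j - n)))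
          (f z * ((w.choose j : ℂ) * (-z) ^ (w - j)) * ((j.descFactorial n : ℂ) * z ^ (j - n)) +
            c j z * ((j.descFactorial (n + 1) : ℂ) * z ^ (j - (n + 1)))) z := fun j _ =>
      (hc j z hz).mul (hasDerivAt_descFactorial_mul_pow j n z)
    have hsum := HasDerivAt.fun_sum hterm
    have hFn : F n = fun z => ∑ j ∈ Finset.range (w + 1),
        c j z * ((j.descFactorial n : ℂ) * z ^ (j - n)) := rfl
    rw [hFn]
    refine hsum.congr_deriv ?_
    rw [Finset.sum_add_distrib, ← sum_choose_descFactorial_eval w n z, Finset.mul_sum]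
    congr 1
    refine Finset.sum_congr rfl fun j _ => ?_
    ring
  have hzero : ∀ n, n ≤ w → ∀ z ∈ U, F n z = 0 := by
    intro n
    induction n with
    | zero =>
      intro _ z hz
      have := hG z hz
      simpa [hF] using this
    | succ n ih =>
      intro hn z hz
      have hn' : n < w := hn
      have h0 : HasDerivAt (F n) 0 z := by
        have hev : F n =ᶠ[nhds z] fun _ => (0 : ℂ) := by
          filter_upwards [hU.mem_nhds hz] with y hy using ih hn'.le y hy
        exact (hasDerivAt_const z (0 : ℂ)).congr_of_eventuallyEq hev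
      have h1 := hderiv n z hz
      have huniq := h0.unique h1
      have hpow : (0 : ℂ) ^ (w - n) = 0 := zero_pow (Nat.sub_ne_zero_of_lt hn')
      rw [hpow, mul_zero, mul_zero, zero_add] at huniq
      exact huniq.symm
  intro z hz
  have h0 : HasDerivAt (F w) 0 z := by
    have hev : F w =ᶠ[nhds z] fun _ => (0 : ℂ) := by
      filter_upwards [hU.mem_nhds hz] with y hy using hzero w le_rfl y hy
    exact (hasDerivAt_const z (0 : ℂ)).congr_of_eventuallyEq hev
  have h1 := hderiv w z hz
  have huniq := h0.unique h1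
  have hFw1 : F (w + 1) z = 0 := by
    simp only [hF]
    refine Finset.sum_eq_zero fun j hj => ?_
    have hjw : j < w + 1 := Finset.mem_range.mp hj
    rw [Nat.descFactorial_of_lt hjw]
    simp
  rw [hFw1, Nat.sub_self, pow_zero, mul_one, add_zero, Nat.descFactorial_self] at huniq
  have hfac : (w.factorial : ℂ) ≠ 0 := by exact_mod_cast w.factorial_ne_zero
  rcases mul_eq_zero.mp huniq.symm with h | h
  · exact h
  · exact absurd h hfac

end Fermat.Agent.H98
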