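/-
P-FDT row FDT-P (helper98): powers of a quadratic relation.

* `lucasV a d n` : the Lucas sequence `V_0 = 2`, `V_1 = a`, `V_{n+2} = a V_{n+1} - d V_n`.
* `quad_rel_pow` : if `M * M - a • M + d • 1 = 0` in a `k`-algebra `R` then
  `M ^ n * M ^ n - lucasV a d n • M ^ n + d ^ n • 1 = 0`.
* `exists_quad_rel_pow` : the existential form.
* `trace_pow_two`, `det_pow_two` : for a `2 × 2` matrix `M` over a commutative ring,
  `(M ^ n).trace = lucasV M.trace M.det n` and `(M ^ n).det = M.det ^ n`.
-/
import Mathlib

set_option autoImplicit false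

namespace Fermat.Agent.H98

/-- The Lucas sequence `V_n(a, d)`: `V_0 = 2`, `V_1 = a`, `V_{n+2} = a V_{n+1} - d V_n`. -/
def lucasV {k : Type*} [CommRing k] (a d : k) : ℕ → k
  | 0 => 2
  | 1 => a
  | (n + 2) => a * lucasV a d (n + 1) - d * lucasV a d n

@[simp] theorem lucasV_zero {k : Type*} [CommRing k] (a d : k) : lucasV a d 0 = 2 := rfl

@[simp] theorem lucasV_one {k : Type*} [CommRing k] (a d : k) : lucasV a d 1 = a := rfl

theorem lucasV_add_two {k : Type*} [CommRing k] (a d : k) (n : ℕ) :
    lucasV a d (n + 2) = a * lucasV a d (n + 1) - d * lucasV a d n := rfl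

theorem lucasV_map {k k' : Type*} [CommRing k] [CommRing k'] (φ : k →+* k') (a d : k) (n : ℕ) :
    φ (lucasV a d n) = lucasV (φ a) (φ d) n := by
  induction n using Nat.strong_induction_on with
  | _ n ih =>
    match n with
    | 0 => simp only [lucasV_zero, map_ofNat]
    | 1 => simp
    | (m + 2) =>
      rw [lucasV_add_two, lucasV_add_two, map_sub, map_mul, map_mul, ih (m + 1) (by omega),
        ih m (by omega)]

section Algebra

variable {k R : Type*} [CommRing k] [Ring R] [Algebra k R]

/-- With `N = a - M` (the "conjugate root"): `M ^ n + N ^ n = V_n`. -/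
theorem pow_add_conj_pow (M : R) (a d : k) (h : M * M - a • M + d • (1 : R) = 0) (n : ℕ) :
    M ^ n + (a • (1 : R) - M) ^ n = lucasV a d n • (1 : R) := by
  have hc : Commute M (a • (1 : R) - M) :=
    ((Commute.one_right M).smul_right a).sub_right (Commute.refl M)
  have hprod : M * (a • (1 : R) - M) = d • (1 : R) := by
    rw [mul_sub, mul_smul_comm, mul_one]
    have : M * M = a • M - d • (1 : R) := by
      have := h
      rw [sub_add_eq_add_sub, sub_eq_zero] at this
      rw [← this]
      abel
    rw [this]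
    abel
  induction n using Nat.strong_induction_on with
  | _ n ih =>
    match n with
    | 0 =>
      simp only [pow_zero, lucasV_zero]
      rw [← one_add_one_eq_two, add_smul, one_smul]
    | 1 =>
      simp only [pow_one, lucasV_one]
      abel
    | (m + 2) =>
      have h1 := ih (m + 1) (by omega)
      have h0 := ih m (by omega)
      set N := a • (1 : R) - M with hN
      have hsum : M + N = a • (1 : R) := by rw [hN]; abel
      have key : M ^ (m + 2) + N ^ (m + 2) =
          (M + N) * (M ^ (m + 1) + N ^ (m + 1)) - (M * N) * (M ^ m + N ^ m) := by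
        have e1 : N * M ^ (m + 1) = (M * N) * M ^ m := by
          rw [pow_succ', ← mul_assoc, hc.eq]
        have e2 : M * N ^ (m + 1) = (M * N) * N ^ m := by
          rw [pow_succ', ← mul_assoc]
        rw [add_mul, mul_add, mul_add, mul_add, e1, e2, ← pow_succ', ← pow_succ']
        abel
      rw [key, hsum, hprod, h1, h0, lucasV_add_two, sub_smul, mul_smul, mul_smul]
      simp only [mul_smul_comm, mul_one, smul_smul]
      congr 1 <;> rw [mul_comm]

/-- **Powers of a quadratic relation**: if `M² - a M + d = 0` then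
`(Mⁿ)² - V_n(a,d) Mⁿ + dⁿ = 0`. -/
theorem quad_rel_pow (M : R) (a d : k) (h : M * M - a • M + d • (1 : R) = 0) (n : ℕ) :
    M ^ n * M ^ n - lucasV a d n • M ^ n + d ^ n • (1 : R) = 0 := by
  have hc : Commute M (a • (1 : R) - M) :=
    ((Commute.one_right M).smul_right a).sub_right (Commute.refl M)
  have hprod : M * (a • (1 : R) - M) = d • (1 : R) := by
    rw [mul_sub, mul_smul_comm, mul_one]
    have : M * M = a • M - d • (1 : R) := by
      have := h
      rw [sub_add_eq_add_sub, sub_eq_zero] at this
      rw [← this]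
      abel
    rw [this]
    abel
  have hV := pow_add_conj_pow M a d h n
  have hpow : M ^ n * (a • (1 : R) - M) ^ n = d ^ n • (1 : R) := by
    rw [← hc.mul_pow, hprod, smul_pow, one_pow]
  have h2 : lucasV a d n • M ^ n = (M ^ n + (a • (1 : R) - M) ^ n) * M ^ n := by
    rw [hV, smul_mul_assoc, one_mul]
  rw [h2, add_mul, ← hpow, (hc.pow_pow n n).eq]
  abel

/-- Existential form of `quad_rel_pow`. -/
theorem exists_quad_rel_pow (M : R) (a d : k) (h : M * M - a • M + d • (1 : R) = 0) (n : ℕ) :
    ∃ t : k, M ^ n * M ^ n - t • M ^ n + d ^ n • (1 : R) = 0 :=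
  ⟨lucasV a d n, quad_rel_pow M a d h n⟩

end Algebra

section Matrix

variable {k : Type*} [CommRing k]

/-- Cayley–Hamilton for `2 × 2` matrices: `M² - tr(M) M + det(M) = 0`. -/
theorem matrix_two_quad_rel (M : Matrix (Fin 2) (Fin 2) k) :
    M * M - M.trace • M + M.det • (1 : Matrix (Fin 2) (Fin 2) k) = 0 := by
  ext i j
  fin_cases i <;> fin_cases j <;>
    simp [Matrix.mul_apply, Fin.sum_univ_two, Matrix.trace, Matrix.det_fin_two] <;>
    ring

/-- `M^(n+2) = tr(M) M^(n+1) - det(M) M^n` for `2 × 2` matrices. -/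
theorem matrix_two_pow_add_two (M : Matrix (Fin 2) (Fin 2) k) (n : ℕ) :
    M ^ (n + 2) = M.trace • M ^ (n + 1) - M.det • M ^ n := by
  have h := matrix_two_quad_rel M
  have h2 : M * M = M.trace • M - M.det • (1 : Matrix (Fin 2) (Fin 2) k) := by
    rw [sub_add_eq_add_sub, sub_eq_zero] at h
    rw [← h]
    abel
  rw [pow_add, pow_two, h2, mul_sub, mul_smul_comm, mul_smul_comm, mul_one, pow_succ]

/-- The trace of the `n`-th power of a `2 × 2` matrix is the Lucas polynomial in trace and
determinant. -/
theorem trace_pow_two (M : Matrix (Fin 2) (Fin 2) k) (n : ℕ) :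
    (M ^ n).trace = lucasV M.trace M.det n := by
  induction n using Nat.strong_induction_on with
  | _ n ih =>
    match n with
    | 0 => simp [Matrix.trace, Fin.sum_univ_two]
    | 1 => simp
    | (m + 2) =>
      rw [matrix_two_pow_add_two, Matrix.trace_sub, Matrix.trace_smul, Matrix.trace_smul,
        ih (m + 1) (by omega), ih m (by omega), lucasV_add_two, smul_eq_mul, smul_eq_mul]

/-- The determinant of the `n`-th power. -/
theorem det_pow_two (M : Matrix (Fin 2) (Fin 2) k) (n : ℕ) : (M ^ n).det = M.det ^ n :=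
  Matrix.det_pow M n

/-- Combined form: the characteristic relation of `M ^ n`. -/
theorem matrix_two_pow_quad_rel (M : Matrix (Fin 2) (Fin 2) k) (n : ℕ) :
    M ^ n * M ^ n - lucasV M.trace M.det n • M ^ n
      + M.det ^ n • (1 : Matrix (Fin 2) (Fin 2) k) = 0 :=
  quad_rel_pow M M.trace M.det (matrix_two_quad_rel M) n

end Matrix

end Fermat.Agent.H98
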