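import Mathlib.NumberTheory.FLT.Four
import Mathlib.NumberTheory.FLT.Three
import Fermat.Prelude.Def_FLTPrelim_FreyPackage

set_option autoImplicit false

namespace Fermat.Agent.H98

/-- Glue: the root statement S01 follows from a proof of the S02 statement
(`FreyPackage.of_counterexample`) and a proof of the S03 statement
(`FreyPackage.no_frey_package`), together with Mathlib's `n = 3` and `n = 4` cases. -/
theorem flt_of_frey
    (h2 : ∀ (a b c : ℤ), a ≠ 0 → b ≠ 0 → c ≠ 0 → ∀ (p : ℕ), p.Prime → 5 ≤ p →
      a ^ p + b ^ p = c ^ p → Nonempty FreyPackage)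
    (h3 : FreyPackage → False)
    (n : ℕ) (hn : 3 ≤ n) (a b c : ℕ) (ha : 0 < a) (hb : 0 < b) (hc : 0 < c) :
    a ^ n + b ^ n ≠ c ^ n := by
  have hFLT : FermatLastTheorem := by
    apply FermatLastTheorem.of_odd_primes
    intro p pp hodd
    rcases Nat.lt_or_ge p 5 with hlt | hge
    · have h2le := pp.two_le
      have hp3 : p = 3 := by
        interval_cases p
        · exact absurd hodd (by decide)
        · rfl
        · exact absurd pp (by decide)
      subst hp3
      exact fermatLastTheoremThree
    · rw [fermatLastTheoremFor_iff_int]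
      intro x y z hx hy hz H
      obtain ⟨P⟩ := h2 x y z hx hy hz p pp hge H
      exact h3 P
  exact hFLT n hn a b c ha.ne' hb.ne' hc.ne'

end Fermat.Agent.H98
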