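import Mathlib.NumberTheory.ModularForms.CongruenceSubgroups
import Mathlib.NumberTheory.ModularForms.Basic
import Fermat.Prelude.Def_FLTPrelim_FreyPackage
import Fermat.Prelude.Def_FLTPrelim_GaloisRep
import Fermat.Prelude.Def_FLTPrelim_Modularity
import Fermat.Prelude.Def_FLTPrelim_CofixedLine

set_option autoImplicit false

open WeierstrassCurve WeierstrassCurve.Affine WeierstrassCurve.Affine.Point

namespace Fermat.Agent.H98

/-- Glue: S09 (Mazur irreducibility for the Frey curve) follows from S13 (reducible gives a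
cofixed line) and S10, S11, S12 (no cofixed line for `p ∈ {5,7,13}`, `p = 11`, `p ≥ 17`). -/
theorem frey_irreducible_of_cofixed (P : FreyPackage)
    (h13 : ¬ GaloisRepIsIrreducible (K := AlgebraicClosure ℚ) ℚ P.freyCurve P.p →
      HasGaloisStableCofixedLine (K := AlgebraicClosure ℚ) ℚ P.freyCurve P.p)
    (h10 : P.p = 5 ∨ P.p = 7 ∨ P.p = 13 →
      ¬ HasGaloisStableCofixedLine (K := AlgebraicClosure ℚ) ℚ P.freyCurve P.p)
    (h11 : P.p = 11 →
      ¬ HasGaloisStableCofixedLine (K := AlgebraicClosure ℚ) ℚ P.freyCurve P.p)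
    (h12 : 17 ≤ P.p →
      ¬ HasGaloisStableCofixedLine (K := AlgebraicClosure ℚ) ℚ P.freyCurve P.p) :
    GaloisRepIsIrreducible (K := AlgebraicClosure ℚ) ℚ P.freyCurve P.p := by
  by_contra hred
  have hline := h13 hred
  have hp5 := P.hp5
  have hpp := P.pp
  rcases Nat.lt_or_ge P.p 17 with hlt | hge
  · have hcases : P.p = 5 ∨ P.p = 7 ∨ P.p = 11 ∨ P.p = 13 := by
      generalize P.p = p at hp5 hpp hlt
      interval_cases p
      · exact Or.inl rfl
      · exact absurd hpp (by decide)
      · exact Or.inr (Or.inl rfl)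
      · exact absurd hpp (by decide)
      · exact absurd hpp (by decide)
      · exact absurd hpp (by decide)
      · exact Or.inr (Or.inr (Or.inl rfl))
      · exact absurd hpp (by decide)
      · exact Or.inr (Or.inr (Or.inr rfl))
      · exact absurd hpp (by decide)
      · exact absurd hpp (by decide)
      · exact absurd hpp (by decide)
    rcases hcases with h | h | h | h
    · exact h10 (Or.inl h) hline
    · exact h10 (Or.inr (Or.inl h)) hline
    · exact h11 h hline
    · exact h10 (Or.inr (Or.inr h)) hline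
  · exact h12 hge hline

/-- Glue: S03 (no Frey package) follows from S04 (modularity of the Frey curve), S09 (Mazur
irreducibility), S45 (level lowering to level 2) and S07 (no weight 2 cusp forms of level 2). -/
theorem no_frey_of (P : FreyPackage)
    (h04 : P.freyCurve.IsModular)
    (h09 : GaloisRepIsIrreducible (K := AlgebraicClosure ℚ) ℚ P.freyCurve P.p)
    (h45 : P.freyCurve.IsModular →
      GaloisRepIsIrreducible (K := AlgebraicClosure ℚ) ℚ P.freyCurve P.p →
      ∃ f : CuspForm (CongruenceSubgroup.Gamma0 2) 2, f ≠ 0)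
    (h07 : ∀ f : CuspForm (CongruenceSubgroup.Gamma0 2) 2, f = 0) : False := by
  obtain ⟨f, hf⟩ := h45 h04 h09
  exact hf (h07 f)

end Fermat.Agent.H98
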